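import Mathlib
import Fermat.Prelude.Def_ExtCitation_AdmissibleExtension_v2

/-!
# T-CFT, module TL (translation layer, helper14): interface

`ExtVanishingCts p` (S14) from `H14CFT.NoTwistedUnramified p`.  The slices below are independent
`Prop`s; the owner of a slice proves `theorem h<seat>_<name> ... : H14TL.<Name> p`.
The assembly (fields `K = ℚ(ζ_p) ⊆ L = ℚ̄^N`, `N` = kernel of the action on `V`) is helper14's.

Notation: `Γ = Gal(ℚ̄/ℚ)`, `χ σ = cycloExp p σ ∈ ℕ` (the mod `p` cyclotomic character, as `.val`).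
An admissible extension is `0 → C → V → V/C → 0` with `Γ` acting trivially on `C` (order `p`)
and through `χ` on `V/C` (order `p`).
-/

set_option autoImplicit false

namespace H14TL

open ExtCitation NumberField

/-- **TL-C1**: `χ` describes the action on the `p`-th roots of unity. -/
def CycloSpec (p : ℕ) [Fact p.Prime] : Prop :=
  ∀ (σ : AlgebraicClosure ℚ ≃ₐ[ℚ] AlgebraicClosure ℚ) (ζ : AlgebraicClosure ℚ),
    ζ ^ p = 1 → σ ζ = ζ ^ (cycloExp p σ)

/-- **TL-C2**: for `p ≥ 3` the cyclotomic character is not trivial. -/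
def CycloNontrivial (p : ℕ) [Fact p.Prime] : Prop :=
  3 ≤ p → ∃ σ : AlgebraicClosure ℚ ≃ₐ[ℚ] AlgebraicClosure ℚ, cycloExp p σ ≠ 1

/-- **TL-A** (easy case): if `ker χ` acts trivially on `V`, the extension splits: the image of
`Γ` in `GL(V)` is then abelian, and the `χ(σ₀)`-eigenline of any `σ₀` with `χ σ₀ ≠ 1` is a
`Γ`-stable complement of `C`. -/
def EasyCase (p : ℕ) [Fact p.Prime] : Prop :=
  3 ≤ p → ∀ (V : Type) [AddCommGroup V] [Module (ZMod p) V]
    [DistribMulAction (AlgebraicClosure ℚ ≃ₐ[ℚ] AlgebraicClosure ℚ) V]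
    [SMulCommClass (AlgebraicClosure ℚ ≃ₐ[ℚ] AlgebraicClosure ℚ) (ZMod p) V]
    (C : Submodule (ZMod p) V), IsAdmissibleExtension p V C →
    (∀ σ : AlgebraicClosure ℚ ≃ₐ[ℚ] AlgebraicClosure ℚ, cycloExp p σ = 1 →
      ∀ v : V, σ • v = v) →
    SplitsGlobally C

/-- **TL-E** (twist, linear algebra on `V`): for `t ∈ ker χ` and any `s`, the elements
`s⁻¹ t s` and `t ^ k` (`k ≡ χ s`) act in the same way on `V`.
(`t v = v + c(v)`, `c : V/C → C` linear; `t^k v = v + k c(v)`; `s v ≡ χ(s) v mod C`.) -/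
def TwistOnV (p : ℕ) [Fact p.Prime] : Prop :=
  ∀ (V : Type) [AddCommGroup V] [Module (ZMod p) V]
    [DistribMulAction (AlgebraicClosure ℚ ≃ₐ[ℚ] AlgebraicClosure ℚ) V]
    [SMulCommClass (AlgebraicClosure ℚ ≃ₐ[ℚ] AlgebraicClosure ℚ) (ZMod p) V]
    (C : Submodule (ZMod p) V), IsAdmissibleExtension p V C →
    ∀ (s t : AlgebraicClosure ℚ ≃ₐ[ℚ] AlgebraicClosure ℚ) (k : ℕ), cycloExp p t = 1 →
      (k : ZMod p) = (cycloExp p s : ZMod p) →
      ∀ v : V, (s⁻¹ * t * s) • v = (t ^ k) • v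

/-- **TL-D** (inertia): an inertia element (at any prime `ℓ`) lying in `ker χ` acts trivially
on `V`.  (`ℓ ≠ p`: `unramified_outside`.  `ℓ = p`: `locally_split` gives a complement `C'` stable
under the decomposition group; `σ` acts trivially on `C` and on `V/C ≅ C'`.) -/
def InertiaTrivial (p : ℕ) [Fact p.Prime] : Prop :=
  ∀ (V : Type) [AddCommGroup V] [Module (ZMod p) V]
    [DistribMulAction (AlgebraicClosure ℚ ≃ₐ[ℚ] AlgebraicClosure ℚ) V]
    [SMulCommClass (AlgebraicClosure ℚ ≃ₐ[ℚ] AlgebraicClosure ℚ) (ZMod p) V]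
    (C : Submodule (ZMod p) V), IsAdmissibleExtension p V C →
    ∀ (A : ValuationSubring (AlgebraicClosure ℚ)) (ℓ : ℕ), ℓ.Prime → A.LiesOverPrime ℓ →
      ∀ σ ∈ A.inertiaSubgroupIn ℚ, cycloExp p σ = 1 → ∀ v : V, σ • v = v

/-- **TL-V** (places): every nonzero prime `Q` of the ring of integers of a number field
`L₀ ⊆ ℚ̄` is contained in the maximal ideal of a valuation subring of `ℚ̄` (Chevalley), which
lies over a rational prime. -/
def PlaceOverPrime : Prop :=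
  ∀ (L₀ : IntermediateField ℚ (AlgebraicClosure ℚ)) (Q : Ideal (𝓞 L₀)), Q.IsPrime → Q ≠ ⊥ →
    ∃ (A : ValuationSubring (AlgebraicClosure ℚ)) (ℓ : ℕ), ℓ.Prime ∧ A.LiesOverPrime ℓ ∧
      ∀ x ∈ Q, (((x : 𝓞 L₀) : L₀) : AlgebraicClosure ℚ) ∈ A.nonunits

/-- **TL-K** (the unipotent kernel): fix `e ∉ C`; `t ↦ t • e - e` restricted to `ker χ` takes
values in `C`, is additive, and vanishes exactly on the elements acting trivially on `V`. -/
def KernelCocycle (p : ℕ) [Fact p.Prime] : Prop :=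
  ∀ (V : Type) [AddCommGroup V] [Module (ZMod p) V]
    [DistribMulAction (AlgebraicClosure ℚ ≃ₐ[ℚ] AlgebraicClosure ℚ) V]
    [SMulCommClass (AlgebraicClosure ℚ ≃ₐ[ℚ] AlgebraicClosure ℚ) (ZMod p) V]
    (C : Submodule (ZMod p) V), IsAdmissibleExtension p V C →
    ∃ e : V, e ∉ C ∧
      (∀ t : AlgebraicClosure ℚ ≃ₐ[ℚ] AlgebraicClosure ℚ, cycloExp p t = 1 → t • e - e ∈ C) ∧
      (∀ t t' : AlgebraicClosure ℚ ≃ₐ[ℚ] AlgebraicClosure ℚ, cycloExp p t = 1 →
        cycloExp p t' = 1 → (t * t') • e - e = (t • e - e) + (t' • e - e)) ∧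
      (∀ t : AlgebraicClosure ℚ ≃ₐ[ℚ] AlgebraicClosure ℚ, cycloExp p t = 1 →
        t • e = e → ∀ v : V, t • v = v) ∧
      (∀ σ : AlgebraicClosure ℚ ≃ₐ[ℚ] AlgebraicClosure ℚ, (∀ v : V, σ • v = v) →
        cycloExp p σ = 1)

end H14TL
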