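/-
T-CFT module TL (helper22): linear algebra of an admissible extension `0 → C → V → V/C → 0`
(common lemmas for the slices E, K, A).
-/
import Mathlib
import Fermat.Prelude.Def_ExtCitation_AdmissibleExtension_v2
import Fermat.Prelude.Def_ExtCitation_KummerBridge
import Fermat.Agent.CFT.TL.Defs

set_option autoImplicit false
set_option linter.style.haveILetI false
set_option linter.unusedSectionVars false

namespace H22TL

open ExtCitation

variable {p : ℕ} [Fact p.Prime]

local notation "Γ" => (AlgebraicClosure ℚ ≃ₐ[ℚ] AlgebraicClosure ℚ)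

theorem h22tl_cast_cycloExp (σ : Γ) : (cycloExp p σ : ZMod p) = (cycloChar p σ : ZMod p) :=
  (coe_cycloChar p σ).symm

theorem h22tl_cycloExp_eq_one_iff (σ : Γ) : cycloExp p σ = 1 ↔ cycloChar p σ = 1 := by
  haveI : NeZero p := ⟨(Fact.out : p.Prime).ne_zero⟩
  haveI : Fact (1 < p) := ⟨(Fact.out : p.Prime).one_lt⟩
  constructor
  · intro h
    apply Units.ext
    rw [Units.val_one, ← h22tl_cast_cycloExp, h, Nat.cast_one]
  · intro h
    rw [← val_cycloChar, h, Units.val_one, ZMod.val_one]

theorem h22tl_cast_cycloExp_eq_one {σ : Γ} (h : cycloExp p σ = 1) :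
    (cycloExp p σ : ZMod p) = 1 := by
  rw [h, Nat.cast_one]

theorem h22tl_cycloExp_mul (σ τ : Γ) :
    (cycloExp p (σ * τ) : ZMod p) = (cycloExp p σ : ZMod p) * (cycloExp p τ : ZMod p) := by
  rw [h22tl_cast_cycloExp, h22tl_cast_cycloExp, h22tl_cast_cycloExp, map_mul, Units.val_mul]

/-- the commutator of two elements lies in `ker χ`. -/
theorem h22tl_cycloExp_comm (σ τ : Γ) : cycloExp p (σ⁻¹ * τ⁻¹ * σ * τ) = 1 := by
  rw [h22tl_cycloExp_eq_one_iff, map_mul, map_mul, map_mul, map_inv, map_inv]
  rw [mul_assoc, mul_assoc, mul_comm (cycloChar p σ) (cycloChar p τ), inv_mul_cancel_left,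
    inv_mul_cancel]

variable {V : Type} [AddCommGroup V] [Module (ZMod p) V] [DistribMulAction Γ V]
  [SMulCommClass Γ (ZMod p) V] {C : Submodule (ZMod p) V}

/-- elements of `ker χ` are unipotent -/
theorem h22tl_sub_mem (hadm : IsAdmissibleExtension p V C) {t : Γ} (ht : cycloExp p t = 1)
    (v : V) : t • v - v ∈ C := by
  have := hadm.cyclo_quot t v
  rwa [h22tl_cast_cycloExp_eq_one ht, one_smul] at this

theorem h22tl_exists_notMem (hadm : IsAdmissibleExtension p V C) : ∃ e : V, e ∉ C := by
  by_contra hcon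
  push Not at hcon
  have htop : C = ⊤ := by
    rw [eq_top_iff]
    intro x _
    exact hcon x
  have h1 := hadm.card_sub
  have h2 := hadm.card_total
  have h3 : Nat.card C = Nat.card V := by
    rw [htop]
    exact Nat.card_congr (Equiv.Set.univ V)
  rw [h1, h2] at h3
  have hp := (Fact.out : p.Prime)
  have : p * 1 = p * p := by rw [mul_one, ← sq]; exact h3
  have := Nat.eq_of_mul_eq_mul_left hp.pos this
  exact hp.one_lt.ne this

/-- `V = C ⊕ ⟨e⟩` for `e ∉ C`. -/
theorem h22tl_decomp (hadm : IsAdmissibleExtension p V C) {e : V} (he : e ∉ C) (v : V) :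
    ∃ c ∈ C, ∃ a : ZMod p, v = c + a • e := by
  haveI : NeZero p := ⟨(Fact.out : p.Prime).ne_zero⟩
  have hp := (Fact.out : p.Prime)
  have hfinV : Finite V := Nat.finite_of_card_ne_zero (by
    rw [hadm.card_total]; exact pow_ne_zero _ hp.ne_zero)
  set f : C × ZMod p → V := fun x => (x.1 : V) + x.2 • e with hf
  have hinj : Function.Injective f := by
    rintro ⟨c, a⟩ ⟨c', a'⟩ h
    simp only [hf] at h
    have h1 : (a - a') • e = (c' : V) - c := by
      rw [sub_smul, sub_eq_sub_iff_add_eq_add, add_comm, h, add_comm]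
    have ha : a = a' := by
      by_contra hne
      apply he
      have h2 : (a - a') • e ∈ C := by
        rw [h1]
        exact C.sub_mem c'.2 c.2
      have h3 := C.smul_mem (a - a')⁻¹ h2
      rwa [smul_smul, inv_mul_cancel₀ (sub_ne_zero.mpr hne), one_smul] at h3
    subst ha
    have hc : (c : V) = c' := by
      rw [sub_self, zero_smul, eq_comm, sub_eq_zero] at h1
      exact h1.symm
    rw [Prod.mk.injEq]
    exact ⟨Subtype.ext hc, rfl⟩
  have hcard : Nat.card (C × ZMod p) = Nat.card V := by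
    rw [Nat.card_prod, hadm.card_sub, Nat.card_zmod, hadm.card_total, sq]
  have hbij := (Nat.bijective_iff_injective_and_card f).mpr ⟨hinj, hcard⟩
  obtain ⟨⟨c, a⟩, hca⟩ := hbij.2 v
  exact ⟨c, c.2, a, hca.symm⟩

end H22TL
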