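/-
T-CFT module TL, slice A (helper22): `H14TL.EasyCase p` (from `H14TL.CycloNontrivial p`).
If `ker χ` acts trivially on `V`, the image of `Γ` in `GL(V)` is abelian, and the
`χ(σ₀)`-eigenspace of any `σ₀` with `χ σ₀ ≠ 1` is a `Γ`-stable complement of `C`.
-/
import Mathlib
import Fermat.Prelude.Def_ExtCitation_AdmissibleExtension_v2
import Fermat.Prelude.Def_ExtCitation_KummerBridge
import Fermat.Agent.CFT.TL.Defs
import Fermat.Agent.CFT.TL.Lin_helper22

set_option autoImplicit false
set_option linter.style.haveILetI false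
set_option linter.unusedSectionVars false

namespace H22TL

open ExtCitation

local notation "Γ" => (AlgebraicClosure ℚ ≃ₐ[ℚ] AlgebraicClosure ℚ)

/-- **TL-A**, given the nontriviality of the cyclotomic character. -/
theorem h22tl_easyCase_of (p : ℕ) [Fact p.Prime] (hC2 : H14TL.CycloNontrivial p) :
    H14TL.EasyCase p := by
  intro hp3 V _ _ _ _ C hadm htriv
  haveI : NeZero p := ⟨(Fact.out : p.Prime).ne_zero⟩
  haveI : Fact (1 < p) := ⟨(Fact.out : p.Prime).one_lt⟩
  obtain ⟨σ₀, hσ₀⟩ := hC2 hp3
  set a : ZMod p := (cycloExp p σ₀ : ZMod p) with ha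
  have ha1 : 1 - a ≠ 0 := by
    intro h
    apply hσ₀
    have h4 : (cycloExp p σ₀ : ZMod p) = 1 := (sub_eq_zero.mp h).symm
    rw [h22tl_cycloExp_eq_one_iff]
    apply Units.ext
    rw [Units.val_one, ← h22tl_cast_cycloExp, h4]
  -- commutativity of the action
  have hcomm : ∀ (σ τ : Γ) (v : V), σ • τ • v = τ • σ • v := by
    intro σ τ v
    have h1 := htriv _ (h22tl_cycloExp_comm (p := p) σ τ) v
    have h2 : σ • τ • v = (τ * σ) • (σ⁻¹ * τ⁻¹ * σ * τ) • v := by
      rw [← mul_smul, ← mul_smul]
      congr 1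
      group
    rw [h2, h1, mul_smul]
  -- the eigenspace
  let C' : Submodule (ZMod p) V :=
    { carrier := {v | σ₀ • v = a • v}
      add_mem' := by
        intro x y hx hy
        simp only [Set.mem_ofPred_eq] at hx hy ⊢
        rw [smul_add, hx, hy, smul_add]
      zero_mem' := by
        simp only [Set.mem_ofPred_eq]
        rw [smul_zero, smul_zero]
      smul_mem' := by
        intro c x hx
        simp only [Set.mem_ofPred_eq] at hx ⊢
        rw [smul_comm σ₀, hx, smul_comm] }
  have hmemC' : ∀ v : V, v ∈ C' ↔ σ₀ • v = a • v := fun v => Iff.rfl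
  refine ⟨C', ?_, ?_⟩
  · intro τ x hx
    rw [hmemC'] at hx ⊢
    rw [hcomm σ₀ τ x, hx, smul_comm]
  · rw [isCompl_iff, disjoint_iff, codisjoint_iff]
    constructor
    · rw [eq_bot_iff]
      intro v hv
      obtain ⟨hv1, hv2⟩ := Submodule.mem_inf.mp hv
      rw [hmemC', hadm.fixed_sub σ₀ v hv1] at hv2
      have h1 : (1 - a) • v = 0 := by
        rw [sub_smul, one_smul, ← hv2, sub_self]
      rw [Submodule.mem_bot]
      have := congrArg (fun x => (1 - a)⁻¹ • x) h1
      simp only [smul_zero] at this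
      rwa [smul_smul, inv_mul_cancel₀ ha1, one_smul] at this
    · rw [eq_top_iff]
      intro v _
      have hw : σ₀ • v - a • v ∈ C := hadm.cyclo_quot σ₀ v
      set c : V := (1 - a)⁻¹ • (σ₀ • v - a • v) with hc
      have hcC : c ∈ C := C.smul_mem _ hw
      have hc1 : (1 - a) • c = σ₀ • v - a • v := by
        rw [hc, smul_smul, mul_inv_cancel₀ ha1, one_smul]
      have hvc : v - c ∈ C' := by
        rw [hmemC', smul_sub, hadm.fixed_sub σ₀ c hcC, smul_sub]
        have h3 : σ₀ • v = a • v + (1 - a) • c := by rw [hc1]; abel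
        rw [h3, sub_smul, one_smul]
        abel
      have : v = c + (v - c) := by abel
      rw [this]
      exact Submodule.add_mem_sup hcC hvc

end H22TL
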