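import Mathlib
import Fermat.Prelude.Def_ExtCitation_AdmissibleExtension_v2
import Fermat.Agent.CFT.TL.Defs

/-!
# T-CFT, module TL, slices C1 + C2 (helper26): the mod `p` cyclotomic character

* `h26tl_cycloSpec`: `σ ζ = ζ ^ cycloExp p σ` for every `p`-th root of unity `ζ` of `ℚ̄`.
* `h26tl_cycloNontrivial`: for `p ≥ 3` some `σ` has `cycloExp p σ ≠ 1`.
-/

set_option autoImplicit false
set_option linter.style.haveILetI false

namespace H14TL

open ExtCitation

/-- **TL-C1**: `χ` describes the action on the `p`-th roots of unity. -/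
theorem h26tl_cycloSpec (p : ℕ) [Fact p.Prime] : CycloSpec p := by
  intro σ ζ hζ
  haveI : NeZero p := ⟨(Fact.out : p.Prime).ne_zero⟩
  have hp0 : p ≠ 0 := (Fact.out : p.Prime).ne_zero
  have ht : Units.ofPowEqOne ζ p hζ hp0 ∈ rootsOfUnity p (AlgebraicClosure ℚ) := by
    rw [mem_rootsOfUnity]
    apply Units.ext
    rw [Units.val_pow_eq_pow_val, Units.val_ofPowEqOne, hζ, Units.val_one]
  have h := modularCyclotomicCharacter.spec (AlgebraicClosure ℚ) (card_rootsOfUnity_eq_self p)
    (σ : AlgebraicClosure ℚ ≃+* AlgebraicClosure ℚ) ht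
  simpa [cycloExp] using h

/-- **TL-C2**: for `p ≥ 3` the cyclotomic character is not trivial. -/
theorem h26tl_cycloNontrivial (p : ℕ) [Fact p.Prime] : CycloNontrivial p := by
  intro hp3
  by_contra hall
  have hall' : ∀ σ : AlgebraicClosure ℚ ≃ₐ[ℚ] AlgebraicClosure ℚ, cycloExp p σ = 1 := by
    intro σ
    by_contra h
    exact hall ⟨σ, h⟩
  haveI : NeZero p := ⟨(Fact.out : p.Prime).ne_zero⟩
  have hp : p.Prime := Fact.out
  obtain ⟨ζ, hζ⟩ := HasEnoughRootsOfUnity.exists_primitiveRoot (AlgebraicClosure ℚ) p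
  -- `ζ` is fixed by the whole Galois group
  have hfix : ∀ σ : AlgebraicClosure ℚ ≃ₐ[ℚ] AlgebraicClosure ℚ, σ ζ = ζ := by
    intro σ
    rw [h26tl_cycloSpec p σ ζ hζ.pow_eq_one, hall' σ, pow_one]
  -- hence rational
  have hG : IsGalois ℚ (AlgebraicClosure ℚ) := by
    have h : (DivisionRing.toRatAlgebra : Algebra ℚ (AlgebraicClosure ℚ)) =
        AlgebraicClosure.instAlgebra ℚ := Subsingleton.elim _ _
    rw [h]
    infer_instance
  obtain ⟨x, hx⟩ := (InfiniteGalois.mem_range_algebraMap_iff_fixed (k := ℚ)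
    (K := AlgebraicClosure ℚ) ζ).mpr hfix
  have hxp : x ^ p = 1 := by
    have h1 : algebraMap ℚ (AlgebraicClosure ℚ) (x ^ p) = algebraMap ℚ (AlgebraicClosure ℚ) 1 := by
      rw [map_pow, hx, hζ.pow_eq_one, map_one]
    exact (algebraMap ℚ (AlgebraicClosure ℚ)).injective h1
  have hodd : Odd p := hp.odd_of_ne_two (by omega)
  have hx1 : x = 1 := by
    have := hodd.strictMono_pow (R := ℚ)
    exact this.injective (by simpa using hxp)
  have hζ1 : ζ = 1 := by rw [← hx, hx1, map_one]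
  rw [hζ1] at hζ
  have := hζ.unique IsPrimitiveRoot.one
  omega

end H14TL
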