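/-
T-CFT module TL, slice A (helper22): `H14TL.EasyCase p`, unconditional
(uses helper26's `h26tl_cycloNontrivial`).
-/
import Mathlib
import Fermat.Agent.CFT.TL.Defs
import Fermat.Agent.CFT.TL.C12_helper26
import Fermat.Agent.CFT.TL.A_helper22

set_option autoImplicit false

namespace H22TL

/-- **TL-A**. -/
theorem h22tl_easyCase (p : ℕ) [Fact p.Prime] : H14TL.EasyCase p :=
  h22tl_easyCase_of p (H14TL.h26tl_cycloNontrivial p)

end H22TL
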