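import Fermat.Agent.CFT.Main
import Fermat.Agent.CFT.TL.Defs
import Fermat.Agent.TEll.BRLiftInertia

/-!
# T-CFT, module TL, assembly (helper14)
-/

set_option autoImplicit false
set_option linter.style.haveILetI false
set_option linter.unusedSectionVars false

namespace H14TL

open ExtCitation NumberField
open scoped Pointwise

local notation "Qb" => AlgebraicClosure ℚ
local notation "Γ" => (AlgebraicClosure ℚ ≃ₐ[ℚ] AlgebraicClosure ℚ)

theorem h14_isGalois_Qb : IsGalois ℚ Qb := by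
  have h : (DivisionRing.toRatAlgebra : Algebra ℚ Qb) = AlgebraicClosure.instAlgebra ℚ :=
    Subsingleton.elim _ _
  rw [h]
  infer_instance

local instance h14_inst_isGalois_Qb : IsGalois ℚ Qb := h14_isGalois_Qb

section kernel

variable (V : Type) [AddCommGroup V] [DistribMulAction Γ V]

/-- the kernel of the action of `Γ` on `V` -/
def h14_ker : Subgroup Γ where
  carrier := {σ | ∀ v : V, σ • v = v}
  mul_mem' := by
    intro a b ha hb v
    rw [mul_smul, hb v, ha v]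
  one_mem' := fun v => one_smul _ v
  inv_mem' := by
    intro a ha v
    have := ha v
    rw [inv_smul_eq_iff, this]

lemma h14_mem_ker (σ : Γ) : σ ∈ h14_ker V ↔ ∀ v : V, σ • v = v := Iff.rfl

instance h14_ker_normal : (h14_ker V).Normal := by
  constructor
  intro n hn g v
  rw [mul_smul, mul_smul, hn, smul_inv_smul]

/-- the field cut out by `V` -/
noncomputable def h14_L0 : IntermediateField ℚ Qb := IntermediateField.fixedField (h14_ker V)

variable {V}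

lemma h14_fixing (hopen : IsOpen {σ : Γ | ∀ v : V, σ • v = v}) :
    (h14_L0 V).fixingSubgroup = h14_ker V := by
  have hcl : IsClosed ((h14_ker V : Subgroup Γ) : Set Γ) :=
    Subgroup.isClosed_of_isOpen (h14_ker V) hopen
  exact InfiniteGalois.fixingSubgroup_fixedField ⟨h14_ker V, hcl⟩

lemma h14_L0_finite (hopen : IsOpen {σ : Γ | ∀ v : V, σ • v = v}) :
    FiniteDimensional ℚ (h14_L0 V) := by
  rw [← InfiniteGalois.isOpen_iff_finite, h14_fixing hopen]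
  exact hopen

lemma h14_L0_galois (hopen : IsOpen {σ : Γ | ∀ v : V, σ • v = v}) :
    IsGalois ℚ (h14_L0 V) := by
  have h := (InfiniteGalois.normal_iff_isGalois (h14_L0 V)).mp (by
    rw [h14_fixing hopen]
    infer_instance)
  exact h

/-- elements acting trivially on `V` fix `L₀` pointwise -/
lemma h14_fix_of_trivial (σ : Γ) (hσ : ∀ v : V, σ • v = v) (x : Qb) (hx : x ∈ h14_L0 V) :
    σ x = x := by
  rw [h14_L0, IntermediateField.mem_fixedField_iff] at hx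
  exact hx σ hσ

/-- elements fixing `L₀` pointwise act trivially on `V` -/
lemma h14_trivial_of_fix (hopen : IsOpen {σ : Γ | ∀ v : V, σ • v = v}) (σ : Γ)
    (hσ : ∀ x ∈ h14_L0 V, σ x = x) (v : V) : σ • v = v := by
  have : σ ∈ (h14_L0 V).fixingSubgroup := by
    rw [IntermediateField.mem_fixingSubgroup_iff]
    exact hσ
  rw [h14_fixing hopen] at this
  exact this v

end kernel

section lifts

variable (L₀ : IntermediateField ℚ Qb) [Normal ℚ L₀]

/-- every automorphism of `L₀` lifts to `Γ` -/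
lemma h14_exists_lift (τ : L₀ ≃ₐ[ℚ] L₀) : ∃ t : Γ, ∀ x : L₀, t (x : Qb) = ((τ x : L₀) : Qb) := by
  obtain ⟨t, ht⟩ := AlgEquiv.restrictNormalHom_surjective Qb τ
  refine ⟨t, fun x => ?_⟩
  have := AlgEquiv.restrictNormal_commutes t L₀ x
  rw [← ht]
  exact this.symm

end lifts


section cyclo

variable {p : ℕ} [Fact p.Prime]

lemma h14_cycloExp_lt (σ : Γ) : cycloExp p σ < p := by
  haveI : NeZero p := ⟨(Fact.out : p.Prime).ne_zero⟩
  unfold cycloExp
  exact ZMod.val_lt _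

lemma h14_cyclo_eq_one_iff (hC1 : CycloSpec p) {ζ : Qb} (hζ : IsPrimitiveRoot ζ p) (σ : Γ) :
    cycloExp p σ = 1 ↔ σ ζ = ζ := by
  constructor
  · intro h
    rw [hC1 σ ζ hζ.pow_eq_one, h, pow_one]
  · intro h
    have h1 := hC1 σ ζ hζ.pow_eq_one
    rw [h] at h1
    have h2 : ζ ^ 1 = ζ ^ cycloExp p σ := by rw [pow_one]; exact h1
    exact (hζ.pow_inj (Fact.out : p.Prime).one_lt (h14_cycloExp_lt σ) h2).symm

lemma h14_cyclo_cast (hC1 : CycloSpec p) {ζ : Qb} (hζ : IsPrimitiveRoot ζ p) (σ : Γ) (k : ℕ)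
    (h : σ ζ = ζ ^ k) : (k : ZMod p) = (cycloExp p σ : ZMod p) := by
  have h1 := hC1 σ ζ hζ.pow_eq_one
  rw [h] at h1
  rw [ZMod.natCast_eq_natCast_iff]
  have hfin : IsOfFinOrder ζ :=
    isOfFinOrder_iff_pow_eq_one.mpr ⟨p, (Fact.out : p.Prime).pos, hζ.pow_eq_one⟩
  have h2 := hfin.pow_eq_pow_iff_modEq.mp h1
  rwa [← hζ.eq_orderOf] at h2

/-- an automorphism fixing `ζ` fixes `ℚ(ζ)` pointwise -/
lemma h14_fix_adjoin {ζ : Qb} (σ : Γ) (h : σ ζ = ζ) (x : Qb)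
    (hx : x ∈ IntermediateField.adjoin ℚ {ζ}) : σ x = x := by
  have halg : IsAlgebraic ℚ ζ := (AlgebraicClosure.isAlgebraic ℚ).isAlgebraic ζ
  have h1 : x ∈ (IntermediateField.adjoin ℚ {ζ}).toSubalgebra := hx
  rw [IntermediateField.adjoin_simple_toSubalgebra_of_isAlgebraic halg] at h1
  have h2 : Algebra.adjoin ℚ {ζ} ≤ AlgHom.equalizer (σ : Qb →ₐ[ℚ] Qb) (AlgHom.id ℚ Qb) := by
    rw [Algebra.adjoin_le_iff]
    intro y hy
    rw [Set.mem_singleton_iff] at hy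
    subst hy
    exact h
  exact h2 h1

end cyclo

section fields

variable (K₀ L₀ : IntermediateField ℚ Qb)

/-- the algebra structure for `K₀ ≤ L₀` -/
@[reducible] noncomputable def h14_alg [h : Fact (K₀ ≤ L₀)] : Algebra K₀ L₀ :=
  (IntermediateField.inclusion h.out).toRingHom.toAlgebra

attribute [local instance] h14_alg

variable [hle : Fact (K₀ ≤ L₀)]

lemma h14_algebraMap_coe (k : K₀) : ((algebraMap K₀ L₀ k : L₀) : Qb) = (k : Qb) := rfl

instance h14_isScalarTower : IsScalarTower K₀ L₀ Qb :=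
  IsScalarTower.of_algebraMap_eq (fun _ => rfl)

lemma h14_numberField [FiniteDimensional ℚ L₀] : NumberField L₀ :=
  { to_charZero := inferInstance, to_finiteDimensional := inferInstance }

lemma h14_isGalois_top [IsGalois ℚ L₀] : IsGalois K₀ L₀ :=
  IsGalois.tower_top_of_isGalois ℚ K₀ L₀

end fields


section core

attribute [local instance] h14_alg

variable {p : ℕ} [Fact p.Prime] {V : Type} [AddCommGroup V] [Module (ZMod p) V]
  [DistribMulAction Γ V] [SMulCommClass Γ (ZMod p) V]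
  (K₀ L₀ : IntermediateField ℚ Qb) [Fact (K₀ ≤ L₀)] [NumberField K₀] [NumberField L₀]
  [IsGalois ℚ L₀] [IsGalois K₀ L₀]

/-- lifting an element of `Gal(L₀/K₀)` to `Γ` -/
lemma h14_lift_K (hP3 : ∀ σ : Γ, (∀ x ∈ K₀, σ x = x) ↔ cycloExp p σ = 1)
    (τ : L₀ ≃ₐ[K₀] L₀) :
    ∃ t : Γ, (∀ x : L₀, t (x : Qb) = ((τ x : L₀) : Qb)) ∧ cycloExp p t = 1 := by
  obtain ⟨t, ht⟩ := h14_exists_lift L₀ (τ.restrictScalars ℚ)
  refine ⟨t, fun x => ht x, ?_⟩
  rw [← hP3]
  intro x hx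
  have h1 := ht (algebraMap K₀ L₀ ⟨x, hx⟩)
  have h2 : τ (algebraMap K₀ L₀ ⟨x, hx⟩) = algebraMap K₀ L₀ ⟨x, hx⟩ := τ.commutes _
  have h3 : (τ.restrictScalars ℚ) (algebraMap K₀ L₀ ⟨x, hx⟩) = algebraMap K₀ L₀ ⟨x, hx⟩ := h2
  rw [h3] at h1
  exact h1

/-- two elements of `Γ` agreeing on `L₀` act in the same way on `V` -/
lemma h14_smul_eq_of_agree (hP2 : ∀ σ : Γ, (∀ x ∈ L₀, σ x = x) ↔ (∀ v : V, σ • v = v))
    (t t' : Γ) (h : ∀ x : L₀, t (x : Qb) = t' (x : Qb)) (v : V) : t • v = t' • v := by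
  have h1 : ∀ x ∈ L₀, (t⁻¹ * t') x = x := by
    intro x hx
    have := h ⟨x, hx⟩
    simp only at this
    rw [AlgEquiv.mul_apply, ← this]
    show (t⁻¹ * t) x = x
    simp
  have h2 := (hP2 (t⁻¹ * t')).mp h1 v
  rw [mul_smul, inv_smul_eq_iff] at h2
  exact h2.symm

/-- two elements of `Γ` acting in the same way on `V` agree on `L₀` -/
lemma h14_agree_of_smul_eq (hP2 : ∀ σ : Γ, (∀ x ∈ L₀, σ x = x) ↔ (∀ v : V, σ • v = v))
    (t t' : Γ) (h : ∀ v : V, t • v = t' • v) (x : Qb) (hx : x ∈ L₀) : t x = t' x := by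
  have h1 : ∀ v : V, (t⁻¹ * t') • v = v := by
    intro v
    rw [mul_smul, inv_smul_eq_iff]
    exact (h v).symm
  have h2 := (hP2 (t⁻¹ * t')).mpr h1 x hx
  rw [AlgEquiv.mul_apply] at h2
  have h3 : t (t⁻¹ (t' x)) = t x := by rw [h2]
  rw [← h3]
  show (t * t⁻¹) (t' x) = t' x
  simp

/-- **unramified everywhere** -/
lemma h14_unramified (hD : InertiaTrivial p) (hV : PlaceOverPrime) (C : Submodule (ZMod p) V)
    (hadm : IsAdmissibleExtension p V C)
    (hP2 : ∀ σ : Γ, (∀ x ∈ L₀, σ x = x) ↔ (∀ v : V, σ • v = v))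
    (hP3 : ∀ σ : Γ, (∀ x ∈ K₀, σ x = x) ↔ cycloExp p σ = 1) :
    H14CFT.UnramifiedEverywhere K₀ L₀ := by
  intro Q hQ hQ0 σ hσ
  obtain ⟨A, ℓ, hℓ, hA, hQA⟩ := hV L₀ Q hQ hQ0
  haveI : FiniteDimensional ℚ L₀ := NumberField.to_finiteDimensional
  obtain ⟨σ', hσ'I, hσ'⟩ := Fermat.Agent.H22BR.h22_lift_inertia L₀ A hℓ hA (σ.restrictScalars ℚ) (by
    intro x hx
    have hx' : IsIntegral ℤ x := hx
    have h1 := hQA _ (hσ ⟨x, hx'⟩)
    exact h1)
  -- `σ'` fixes `K₀`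
  have hχ : cycloExp p σ' = 1 := by
    rw [← hP3]
    intro x hx
    have h1 := hσ' (algebraMap K₀ L₀ ⟨x, hx⟩)
    have h2 : (σ.restrictScalars ℚ) (algebraMap K₀ L₀ ⟨x, hx⟩) = algebraMap K₀ L₀ ⟨x, hx⟩ :=
      σ.commutes _
    rw [h2] at h1
    exact h1
  have htriv := hD V C hadm A ℓ hℓ hA σ' hσ'I hχ
  have hfix := (hP2 σ').mpr htriv
  ext x
  have h1 := hσ' x
  rw [hfix _ x.2] at h1
  exact h1.symm

end core


section core2

attribute [local instance] h14_alg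

variable {p : ℕ} [Fact p.Prime] {V : Type} [AddCommGroup V] [Module (ZMod p) V]
  [DistribMulAction Γ V] [SMulCommClass Γ (ZMod p) V]
  (K₀ L₀ : IntermediateField ℚ Qb) [Fact (K₀ ≤ L₀)] [NumberField K₀] [NumberField L₀]
  [IsGalois ℚ L₀] [IsGalois K₀ L₀]

omit [IsGalois ℚ L₀] [NumberField L₀] in
lemma h14_lift_inv (s : Γ) (σ : L₀ ≃ₐ[ℚ] L₀) (hs : ∀ x : L₀, s (x : Qb) = ((σ x : L₀) : Qb))
    (x : L₀) : s⁻¹ (x : Qb) = ((σ⁻¹ x : L₀) : Qb) := by
  have h1 := hs (σ⁻¹ x)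
  have h2 : σ (σ⁻¹ x) = x := by
    show (σ * σ⁻¹) x = x
    simp
  rw [h2] at h1
  rw [← h1]
  show (s⁻¹ * s) _ = _
  simp

omit [IsGalois ℚ L₀] [NumberField L₀] in
lemma h14_lift_pow (t : Γ) (τ : L₀ ≃ₐ[ℚ] L₀) (ht : ∀ x : L₀, t (x : Qb) = ((τ x : L₀) : Qb))
    (k : ℕ) (x : L₀) : (t ^ k) (x : Qb) = (((τ ^ k) x : L₀) : Qb) := by
  induction k generalizing x with
  | zero => simp
  | succ n ih =>
    rw [pow_succ, pow_succ, AlgEquiv.mul_apply, AlgEquiv.mul_apply, ht, ih]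

/-- **the twist** -/
lemma h14_twist (hC1 : CycloSpec p) (hE : TwistOnV p) (C : Submodule (ZMod p) V)
    (hadm : IsAdmissibleExtension p V C)
    (hP2 : ∀ σ : Γ, (∀ x ∈ L₀, σ x = x) ↔ (∀ v : V, σ • v = v))
    (hP3 : ∀ σ : Γ, (∀ x ∈ K₀, σ x = x) ↔ cycloExp p σ = 1) :
    ∀ (σ : L₀ ≃ₐ[ℚ] L₀) (τ : L₀ ≃ₐ[K₀] L₀) (ζ : K₀) (k : ℕ), IsPrimitiveRoot ζ p →
      σ (algebraMap K₀ L₀ ζ) = algebraMap K₀ L₀ ζ ^ k →
      σ⁻¹ * τ.restrictScalars ℚ * σ = (τ.restrictScalars ℚ) ^ k := by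
  intro σ τ ζ k hζ hσ
  obtain ⟨s, hs⟩ := h14_exists_lift L₀ σ
  obtain ⟨t, ht, hχt⟩ := h14_lift_K K₀ L₀ hP3 τ
  have hζ₀ : IsPrimitiveRoot ((ζ : K₀) : Qb) p :=
    hζ.map_of_injective (f := algebraMap K₀ Qb) (algebraMap K₀ Qb).injective
  have hsζ : s ((ζ : K₀) : Qb) = ((ζ : K₀) : Qb) ^ k := by
    have h1 := hs (algebraMap K₀ L₀ ζ)
    rw [hσ] at h1
    exact h1
  have hk := h14_cyclo_cast hC1 hζ₀ s k hsζ
  have hact := hE V C hadm s t k hχt hk
  have hagree := h14_agree_of_smul_eq L₀ hP2 _ _ hact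
  ext x
  have h1 := hagree (x : Qb) x.2
  have h2 : (s⁻¹ * t * s) (x : Qb) = (((σ⁻¹ * τ.restrictScalars ℚ * σ) x : L₀) : Qb) := by
    rw [AlgEquiv.mul_apply, AlgEquiv.mul_apply, hs x, ht (σ x),
      h14_lift_inv L₀ s σ hs (τ (σ x))]
    rfl
  have h3 := h14_lift_pow L₀ t (τ.restrictScalars ℚ) ht k x
  rw [h2, h3] at h1
  exact h1

/-- **the degree** -/
lemma h14_finrank (C : Submodule (ZMod p) V) (hcard : Nat.card C = p)
    (hP2 : ∀ σ : Γ, (∀ x ∈ L₀, σ x = x) ↔ (∀ v : V, σ • v = v))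
    (hP3 : ∀ σ : Γ, (∀ x ∈ K₀, σ x = x) ↔ cycloExp p σ = 1)
    (e : V)
    (hmem : ∀ t : Γ, cycloExp p t = 1 → t • e - e ∈ C)
    (hadd : ∀ t t' : Γ, cycloExp p t = 1 → cycloExp p t' = 1 →
      (t * t') • e - e = (t • e - e) + (t' • e - e))
    (hker : ∀ t : Γ, cycloExp p t = 1 → t • e = e → ∀ v : V, t • v = v)
    (hnt : ∃ t : Γ, cycloExp p t = 1 ∧ ∃ v : V, t • v ≠ v) :
    Module.finrank K₀ L₀ = p := by
  classical
  choose ℓ hℓ hℓχ using h14_lift_K K₀ L₀ hP3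
  have hone : ℓ 1 • e = e := by
    have := h14_smul_eq_of_agree L₀ hP2 (ℓ 1) 1 (fun x => by rw [hℓ 1 x]; rfl) e
    rw [this, one_smul]
  have hmul : ∀ τ τ' : L₀ ≃ₐ[K₀] L₀, ℓ (τ * τ') • e = (ℓ τ * ℓ τ') • e := by
    intro τ τ'
    apply h14_smul_eq_of_agree L₀ hP2
    intro x
    rw [hℓ (τ * τ') x]
    show _ = (ℓ τ) ((ℓ τ') (x : Qb))
    rw [hℓ τ' x, hℓ τ (τ' x)]
    rfl
  let g : (L₀ ≃ₐ[K₀] L₀) →* Multiplicative C :=
    { toFun := fun τ => Multiplicative.ofAdd ⟨ℓ τ • e - e, hmem (ℓ τ) (hℓχ τ)⟩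
      map_one' := by
        show Multiplicative.ofAdd _ = Multiplicative.ofAdd 0
        congr 1
        apply Subtype.ext
        show ℓ 1 • e - e = 0
        rw [hone, sub_self]
      map_mul' := by
        intro τ τ'
        show Multiplicative.ofAdd _ = Multiplicative.ofAdd (_ + _)
        congr 1
        apply Subtype.ext
        show ℓ (τ * τ') • e - e = (ℓ τ • e - e) + (ℓ τ' • e - e)
        rw [hmul, hadd _ _ (hℓχ τ) (hℓχ τ')] }
  have hinj : Function.Injective g := by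
    rw [injective_iff_map_eq_one]
    intro τ hτ
    have h1 : ℓ τ • e - e = 0 := by
      have := congrArg (fun z => ((Multiplicative.toAdd z : C) : V)) hτ
      exact this
    have h2 : ℓ τ • e = e := sub_eq_zero.mp h1
    have h3 := hker (ℓ τ) (hℓχ τ) h2
    have h4 := (hP2 (ℓ τ)).mpr h3
    ext x
    have h5 := hℓ τ x
    rw [h4 _ x.2] at h5
    exact h5.symm
  have hdvd : Nat.card (L₀ ≃ₐ[K₀] L₀) ∣ Nat.card (Multiplicative C) :=
    Subgroup.card_dvd_of_injective g hinj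
  have hcard' : Nat.card (Multiplicative C) = p :=
    (Nat.card_congr Multiplicative.toAdd).trans hcard
  rw [hcard'] at hdvd
  have hne : Nat.card (L₀ ≃ₐ[K₀] L₀) ≠ 1 := by
    intro h1
    obtain ⟨t₀, hχ₀, v, hv⟩ := hnt
    have hfixK := (hP3 t₀).mpr hχ₀
    let τ₀ : L₀ ≃ₐ[K₀] L₀ :=
      AlgEquiv.ofRingEquiv (f := (t₀.restrictNormal L₀).toRingEquiv) (by
        intro k
        apply Subtype.ext
        have h := AlgEquiv.restrictNormal_commutes t₀ L₀ (algebraMap K₀ L₀ k)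
        have h' : ((t₀.restrictNormal L₀ (algebraMap K₀ L₀ k) : L₀) : Qb)
            = t₀ ((algebraMap K₀ L₀ k : L₀) : Qb) := h
        show ((t₀.restrictNormal L₀ (algebraMap K₀ L₀ k) : L₀) : Qb) = _
        rw [h']
        exact hfixK _ k.2)
    haveI : Subsingleton (L₀ ≃ₐ[K₀] L₀) := (Nat.card_eq_one_iff_unique.mp h1).1
    have hτ₀ : τ₀ = 1 := Subsingleton.elim _ _
    have hfixL : ∀ x ∈ L₀, t₀ x = x := by
      intro x hx
      have h := AlgEquiv.restrictNormal_commutes t₀ L₀ ⟨x, hx⟩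
      have h' : ((τ₀ ⟨x, hx⟩ : L₀) : Qb) = t₀ x := h
      rw [hτ₀] at h'
      exact h'.symm
    exact hv ((hP2 t₀).mp hfixL v)
  rw [← IsGalois.card_aut_eq_finrank]
  rcases (Nat.dvd_prime (Fact.out : p.Prime)).mp hdvd with h | h
  · exact absurd h hne
  · exact h

end core2


section final

attribute [local instance] h14_alg

/-- **TL assembly**: `ExtVanishingCts p` from `NoTwistedUnramified p` and the slices. -/
theorem h14_tl (p : ℕ) [Fact p.Prime] (h3 : 3 ≤ p)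
    (hC1 : CycloSpec p) (hA : EasyCase p) (hE : TwistOnV p) (hD : InertiaTrivial p)
    (hV : PlaceOverPrime) (hK : KernelCocycle p)
    (hN : H14CFT.NoTwistedUnramified p) : ExtCitation.ExtVanishingCts p := by
  intro V _ _ _ _ C hadm
  by_cases htriv : ∀ σ : Γ, cycloExp p σ = 1 → ∀ v : V, σ • v = v
  · exact hA h3 V C hadm.toIsAdmissibleExtension htriv
  · exfalso
    push Not at htriv
    obtain ⟨t₀, hχ₀, v₀, hv₀⟩ := htriv
    have hopen := hadm.open_kernel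
    obtain ⟨e, he, hmem, hadd, hker, hχ⟩ := hK V C hadm.toIsAdmissibleExtension
    haveI : NeZero p := ⟨(Fact.out : p.Prime).ne_zero⟩
    obtain ⟨ζ, hζ⟩ := HasEnoughRootsOfUnity.exists_primitiveRoot Qb p
    have hP2 : ∀ σ : Γ, (∀ x ∈ h14_L0 V, σ x = x) ↔ (∀ v : V, σ • v = v) := fun σ =>
      ⟨h14_trivial_of_fix hopen σ, fun h x hx => h14_fix_of_trivial σ h x hx⟩
    have hP3 : ∀ σ : Γ, (∀ x ∈ IntermediateField.adjoin ℚ {ζ}, σ x = x) ↔ cycloExp p σ = 1 := by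
      intro σ
      rw [h14_cyclo_eq_one_iff hC1 hζ]
      exact ⟨fun h => h ζ (IntermediateField.mem_adjoin_simple_self ℚ ζ),
        fun h x hx => h14_fix_adjoin σ h x hx⟩
    have hle : IntermediateField.adjoin ℚ {ζ} ≤ h14_L0 V := by
      rw [IntermediateField.adjoin_simple_le_iff, h14_L0, IntermediateField.mem_fixedField_iff]
      intro σ hσ
      exact (h14_cyclo_eq_one_iff hC1 hζ σ).mp (hχ σ hσ)
    haveI : Fact (IntermediateField.adjoin ℚ {ζ} ≤ h14_L0 V) := ⟨hle⟩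
    haveI : FiniteDimensional ℚ (h14_L0 V) := h14_L0_finite hopen
    haveI : IsGalois ℚ (h14_L0 V) := h14_L0_galois hopen
    haveI : NumberField (h14_L0 V) :=
      { to_charZero := inferInstance, to_finiteDimensional := inferInstance }
    have hint : IsIntegral ℚ ζ := ((AlgebraicClosure.isAlgebraic ℚ).isAlgebraic ζ).isIntegral
    haveI : FiniteDimensional ℚ (IntermediateField.adjoin ℚ {ζ}) :=
      IntermediateField.adjoin.finiteDimensional hint
    haveI : NumberField (IntermediateField.adjoin ℚ {ζ}) :=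
      { to_charZero := inferInstance, to_finiteDimensional := inferInstance }
    haveI : IsGalois (IntermediateField.adjoin ℚ {ζ}) (h14_L0 V) :=
      h14_isGalois_top _ _
    haveI : Algebra.IsIntegral ℚ Qb := (AlgebraicClosure.isAlgebraic ℚ).isIntegral
    haveI : IsCyclotomicExtension {p} ℚ (IntermediateField.adjoin ℚ {ζ}) :=
      hζ.intermediateField_adjoin_isCyclotomicExtension ℚ
    have hp2 : p ≠ 2 := by omega
    exact hN (IntermediateField.adjoin ℚ {ζ}) (h14_L0 V) Fact.out hp2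
      (h14_finrank _ _ C hadm.card_sub hP2 hP3 e hmem hadd hker ⟨t₀, hχ₀, v₀, hv₀⟩)
      (h14_unramified _ _ hD hV C hadm.toIsAdmissibleExtension hP2 hP3)
      (h14_twist _ _ hC1 hE C hadm.toIsAdmissibleExtension hP2 hP3)

end final

end H14TL
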