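import Mathlib
import Fermat.Prelude.Def_ExtCitation_AdmissibleExtension_v2
import Fermat.Agent.CFT.TL.Defs

/-!
# T-CFT, module TL, slice D (helper19): `H14TL.InertiaTrivial p`

An inertia element (at any prime `ℓ`) lying in `ker χ` acts trivially on an admissible
extension `V`.

* `ℓ ≠ p`: this is `IsAdmissibleExtension.unramified_outside`.
* `ℓ = p`: `locally_split` gives a complement `C'` of `C` stable under the decomposition group;
  an inertia element `σ` is in the decomposition group, it fixes `C` pointwise (`fixed_sub`),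
  and for `x ∈ C'` we have `σ • x - x ∈ C ⊓ C' = ⊥` (`cyclo_quot` with `χ σ = 1`).
-/

set_option autoImplicit false

namespace H14TL

open ExtCitation

/-- An element of the inertia subgroup (as a subgroup of the full Galois group) lies in the
decomposition subgroup. -/
theorem h19tl_inertia_mem_decomposition {K L : Type*} [Field K] [Field L] [Algebra K L]
    (A : ValuationSubring L) {σ : L ≃ₐ[K] L} (hσ : σ ∈ A.inertiaSubgroupIn K) :
    σ ∈ A.decompositionSubgroup K := by
  obtain ⟨τ, -, rfl⟩ := hσ
  exact τ.2

/-- Linear-algebra core of slice D: if `σ` fixes `C` pointwise, stabilises a complement `C'`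
and acts on `V` as the identity modulo `C`, then `σ` acts trivially on `V`. -/
theorem h19tl_trivial_of_compl {p : ℕ} [Fact p.Prime] {V : Type} [AddCommGroup V]
    [Module (ZMod p) V] {G : Type} [Monoid G] [DistribMulAction G V]
    (C C' : Submodule (ZMod p) V) (hcompl : IsCompl C C') (σ : G)
    (hfix : ∀ x ∈ C, σ • x = x) (hstab : ∀ x ∈ C', σ • x ∈ C')
    (hquot : ∀ x : V, σ • x - x ∈ C) (v : V) : σ • v = v := by
  have hv : v ∈ C ⊔ C' := by
    rw [hcompl.sup_eq_top]; exact Submodule.mem_top
  obtain ⟨c, hc, c', hc', rfl⟩ := Submodule.mem_sup.mp hv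
  have h1 : σ • c = c := hfix c hc
  have h2 : σ • c' = c' := by
    have hmem : σ • c' - c' ∈ C ⊓ C' :=
      ⟨hquot c', C'.sub_mem (hstab c' hc') hc'⟩
    rw [hcompl.inf_eq_bot, Submodule.mem_bot] at hmem
    exact sub_eq_zero.mp hmem
  rw [smul_add, h1, h2]

/-- **TL-D**: an inertia element in `ker χ` acts trivially on an admissible extension. -/
theorem h19tl_inertiaTrivial (p : ℕ) [Fact p.Prime] : H14TL.InertiaTrivial p := by
  intro V _ _ _ _ C hadm A ℓ hℓ hA σ hσ hχ v
  by_cases hℓp : ℓ = p
  · subst hℓp
    obtain ⟨C', hstab, hcompl⟩ := hadm.locally_split A hA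
    have hdec : σ ∈ A.decompositionSubgroup ℚ := h19tl_inertia_mem_decomposition A hσ
    refine h19tl_trivial_of_compl C C' hcompl σ (hadm.fixed_sub σ) (hstab σ hdec) ?_ v
    intro x
    have h := hadm.cyclo_quot σ x
    rw [hχ, Nat.cast_one, one_smul] at h
    exact h
  · exact hadm.unramified_outside ℓ hℓ hℓp A hA σ hσ v

end H14TL
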