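/-
T-CFT module TL, slice E (helper22): `H14TL.TwistOnV p`.
For `t ∈ ker χ` and any `s`, the elements `s⁻¹ t s` and `t ^ k` (`k ≡ χ s`) act equally on `V`.
-/
import Mathlib
import Fermat.Prelude.Def_ExtCitation_AdmissibleExtension_v2
import Fermat.Prelude.Def_ExtCitation_KummerBridge
import Fermat.Agent.CFT.TL.Defs
import Fermat.Agent.CFT.TL.Lin_helper22

set_option autoImplicit false
set_option linter.style.haveILetI false
set_option linter.unusedSectionVars false

namespace H22TL

open ExtCitation

variable {p : ℕ} [Fact p.Prime]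

local notation "Γ" => (AlgebraicClosure ℚ ≃ₐ[ℚ] AlgebraicClosure ℚ)

variable {V : Type} [AddCommGroup V] [Module (ZMod p) V] [DistribMulAction Γ V]
  [SMulCommClass Γ (ZMod p) V] {C : Submodule (ZMod p) V}

/-- powers of a unipotent element -/
theorem h22tl_pow_smul (hadm : IsAdmissibleExtension p V C) {t : Γ} (ht : cycloExp p t = 1)
    (n : ℕ) (w : V) : (t ^ n) • w = w + (n : ZMod p) • (t • w - w) := by
  induction n with
  | zero => simp
  | succ n ih =>
    rw [pow_succ', mul_smul, ih, smul_add, smul_comm t,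
      hadm.fixed_sub t _ (h22tl_sub_mem hadm ht w)]
    push_cast
    rw [add_smul, one_smul]
    abel

/-- the unipotent part is `χ`-semilinear under conjugation -/
theorem h22tl_sub_smul (hadm : IsAdmissibleExtension p V C) (t s : Γ) (v : V) : t • (s • v) - s • v = (cycloExp p s : ZMod p) • (t • v - v) := by
  have hc0 := hadm.cyclo_quot s v
  set c0 := s • v - (cycloExp p s : ZMod p) • v with hc0def
  have hw : s • v = (cycloExp p s : ZMod p) • v + c0 := by rw [hc0def]; abel
  rw [hw, smul_add, hadm.fixed_sub t c0 hc0, smul_comm t, smul_sub]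
  abel

/-- **TL-E**. -/
theorem h22tl_twistOnV (p : ℕ) [Fact p.Prime] : H14TL.TwistOnV p := by
  intro V _ _ _ _ C hadm s t k ht hk v
  rw [h22tl_pow_smul hadm ht k v, mul_smul, mul_smul]
  have h1 : t • (s • v) = s • v + (t • (s • v) - s • v) := by abel
  have hmem : t • (s • v) - s • v ∈ C := h22tl_sub_mem hadm ht (s • v)
  rw [h1, smul_add, inv_smul_smul, hadm.fixed_sub s⁻¹ _ hmem, h22tl_sub_smul hadm t s v, hk]

end H22TL
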