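/-
T-CFT module TL, slice K (helper22): `H14TL.KernelCocycle p`.
Fix `e ∉ C`; `t ↦ t • e - e` on `ker χ` takes values in `C`, is additive, and vanishes exactly
on the elements acting trivially on `V`.
-/
import Mathlib
import Fermat.Prelude.Def_ExtCitation_AdmissibleExtension_v2
import Fermat.Prelude.Def_ExtCitation_KummerBridge
import Fermat.Agent.CFT.TL.Defs
import Fermat.Agent.CFT.TL.Lin_helper22

set_option autoImplicit false
set_option linter.style.haveILetI false
set_option linter.unusedSectionVars false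

namespace H22TL

open ExtCitation

local notation "Γ" => (AlgebraicClosure ℚ ≃ₐ[ℚ] AlgebraicClosure ℚ)

/-- **TL-K**. -/
theorem h22tl_kernelCocycle (p : ℕ) [Fact p.Prime] : H14TL.KernelCocycle p := by
  intro V _ _ _ _ C hadm
  haveI : NeZero p := ⟨(Fact.out : p.Prime).ne_zero⟩
  haveI : Fact (1 < p) := ⟨(Fact.out : p.Prime).one_lt⟩
  obtain ⟨e, he⟩ := h22tl_exists_notMem hadm
  refine ⟨e, he, ?_, ?_, ?_, ?_⟩
  · intro t ht
    exact h22tl_sub_mem hadm ht e
  · intro t t' ht ht'
    have hmem : t' • e - e ∈ C := h22tl_sub_mem hadm ht' e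
    have h1 : t' • e = e + (t' • e - e) := by abel
    rw [mul_smul]
    nth_rewrite 1 [h1]
    rw [smul_add, hadm.fixed_sub t _ hmem]
    abel
  · intro t _ hte v
    obtain ⟨c, hc, a, rfl⟩ := h22tl_decomp hadm he v
    rw [smul_add, hadm.fixed_sub t c hc, smul_comm t, hte]
  · intro σ hσ
    have h1 := hadm.cyclo_quot σ e
    rw [hσ e] at h1
    have h2 : e - (cycloExp p σ : ZMod p) • e = (1 - (cycloExp p σ : ZMod p)) • e := by
      rw [sub_smul, one_smul]
    rw [h2] at h1
    have h3 : (1 - (cycloExp p σ : ZMod p)) = 0 := by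
      by_contra hne
      apply he
      have := C.smul_mem (1 - (cycloExp p σ : ZMod p))⁻¹ h1
      rwa [smul_smul, inv_mul_cancel₀ hne, one_smul] at this
    have h4 : (cycloExp p σ : ZMod p) = 1 := (sub_eq_zero.mp h3).symm
    rw [h22tl_cycloExp_eq_one_iff]
    apply Units.ext
    rw [Units.val_one, ← h22tl_cast_cycloExp, h4]

end H22TL
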