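import Mathlib
import Fermat.Prelude.Def_ExtCitation_AdmissibleExtension_v2
import Fermat.Agent.CFT.TL.Defs

/-!
# T-CFT, module TL, slice V (helper19): `H14TL.PlaceOverPrime`

Every nonzero prime `Q` of the ring of integers of an intermediate field `L₀ ⊆ ℚ̄` is contained
in the maximal ideal of a valuation subring `A` of `ℚ̄` (Chevalley's extension theorem,
`Ideal.image_subset_nonunits_valuationSubring`), and `A` lies over the rational prime `ℓ` below
`Q` (`Q ∩ ℤ ≠ 0` because `𝓞 L₀` is integral over `ℤ`).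
-/

set_option autoImplicit false

namespace H14TL

open NumberField

/-- A nonzero prime ideal of `ℤ` contains a prime number. -/
theorem h19tl_exists_prime_mem (P : Ideal ℤ) [hP : P.IsPrime] (hne : P ≠ ⊥) :
    ∃ ℓ : ℕ, ℓ.Prime ∧ (ℓ : ℤ) ∈ P := by
  have hg : Prime (Submodule.IsPrincipal.generator P) :=
    Submodule.IsPrincipal.prime_generator_of_isPrime P hne
  refine ⟨(Submodule.IsPrincipal.generator P).natAbs, Int.prime_iff_natAbs_prime.mp hg, ?_⟩
  have hmem : Submodule.IsPrincipal.generator P ∈ P := Submodule.IsPrincipal.generator_mem P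
  rcases Int.natAbs_eq (Submodule.IsPrincipal.generator P) with h | h
  · rw [← h]; exact hmem
  · have h2 : ((Submodule.IsPrincipal.generator P).natAbs : ℤ)
        = -Submodule.IsPrincipal.generator P := by
      rw [h, neg_neg, Int.natAbs_neg, Int.natAbs_natCast]
    rw [h2]
    exact P.neg_mem hmem

/-- **TL-V**: Chevalley for a nonzero prime of the ring of integers of `L₀ ⊆ ℚ̄`. -/
theorem h19tl_placeOverPrime : H14TL.PlaceOverPrime := by
  intro L₀ Q hQ hQ0
  -- the embedding `𝓞 L₀ → ℚ̄`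
  let φ : 𝓞 L₀ →+* AlgebraicClosure ℚ :=
    (algebraMap L₀ (AlgebraicClosure ℚ)).comp (algebraMap (𝓞 L₀) L₀)
  have hφinj : Function.Injective φ :=
    (algebraMap L₀ (AlgebraicClosure ℚ)).injective.comp
      (FaithfulSMul.algebraMap_injective (𝓞 L₀) L₀)
  have hφ : ∀ x : 𝓞 L₀, φ x = (((x : 𝓞 L₀) : L₀) : AlgebraicClosure ℚ) := fun _ => rfl
  let A₀ : Subring (AlgebraicClosure ℚ) := φ.range
  -- the image of `Q` in `A₀`, as the preimage under a retraction
  let f : 𝓞 L₀ →+* A₀ := φ.rangeRestrict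
  have hfbij : Function.Bijective f :=
    ⟨fun a b hab => hφinj (by
        have h := congrArg (fun z : A₀ => (z : AlgebraicClosure ℚ)) hab
        exact h), φ.rangeRestrict_surjective⟩
  let e : 𝓞 L₀ ≃+* A₀ := RingEquiv.ofBijective f hfbij
  let I : Ideal A₀ := Ideal.comap (e.symm : A₀ →+* 𝓞 L₀) Q
  have hIprime : I.IsPrime := Ideal.comap_isPrime _ Q
  obtain ⟨B, -, hB⟩ := Ideal.image_subset_nonunits_valuationSubring I hIprime.ne_top
  have key : ∀ x ∈ Q, φ x ∈ B.nonunits := by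
    intro x hx
    refine hB ⟨e x, ?_, rfl⟩
    change (e.symm : A₀ →+* 𝓞 L₀) (e x) ∈ Q
    simpa using hx
  -- the rational prime below `Q`
  have hP0 : Q.comap (algebraMap ℤ (𝓞 L₀)) ≠ ⊥ := Ideal.IsIntegral.comap_ne_bot ℤ hQ0
  have : (Q.comap (algebraMap ℤ (𝓞 L₀))).IsPrime := Ideal.comap_isPrime _ Q
  obtain ⟨ℓ, hℓ, hℓP⟩ := h19tl_exists_prime_mem (Q.comap (algebraMap ℤ (𝓞 L₀))) hP0
  refine ⟨B, ℓ, hℓ, ?_, fun x hx => by rw [← hφ]; exact key x hx⟩
  have h1 : algebraMap ℤ (𝓞 L₀) (ℓ : ℤ) ∈ Q := hℓP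
  have h2 := key _ h1
  have h3 : φ (algebraMap ℤ (𝓞 L₀) (ℓ : ℤ)) = (ℓ : AlgebraicClosure ℚ) := by
    simp
  rw [h3] at h2
  exact h2

end H14TL
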