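import Mathlib
import Fermat.Prelude.Def_ExtCitation_AdmissibleExtension_v2
import Fermat.Agent.CFT.TL.Defs
import Fermat.Agent.CFT.TL.C12_helper26

/-!
# T-CFT TL slice A (`EasyCase`) (helper12)

If `ker χ` acts trivially on an admissible extension `V`, the image of `Γ` in `Aut V` is
abelian and the `χ(σ₀)`-eigenspace of any `σ₀` with `χ σ₀ ≠ 1` is a `Γ`-stable complement of `C`.
-/

set_option autoImplicit false
set_option linter.style.haveILetI false

namespace H14TL

open ExtCitation NumberField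

/-- the mod `p` cyclotomic character as a unit of `ZMod p` -/
noncomputable def h12tl_chi (p : ℕ) [Fact p.Prime] :
    (AlgebraicClosure ℚ ≃ₐ[ℚ] AlgebraicClosure ℚ) →* (ZMod p)ˣ where
  toFun σ :=
    haveI : NeZero p := ⟨(Fact.out : p.Prime).ne_zero⟩
    modularCyclotomicCharacter (AlgebraicClosure ℚ) (card_rootsOfUnity_eq_self p)
      (σ : AlgebraicClosure ℚ ≃+* AlgebraicClosure ℚ)
  map_one' := by
    haveI : NeZero p := ⟨(Fact.out : p.Prime).ne_zero⟩
    exact map_one (modularCyclotomicCharacter (AlgebraicClosure ℚ) (card_rootsOfUnity_eq_self p))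
  map_mul' σ τ := by
    haveI : NeZero p := ⟨(Fact.out : p.Prime).ne_zero⟩
    exact map_mul (modularCyclotomicCharacter (AlgebraicClosure ℚ) (card_rootsOfUnity_eq_self p))
      (σ : AlgebraicClosure ℚ ≃+* AlgebraicClosure ℚ) (τ : AlgebraicClosure ℚ ≃+* AlgebraicClosure ℚ)

theorem h12tl_cycloExp_eq (p : ℕ) [Fact p.Prime]
    (σ : AlgebraicClosure ℚ ≃ₐ[ℚ] AlgebraicClosure ℚ) :
    cycloExp p σ = ((h12tl_chi p σ : (ZMod p)ˣ) : ZMod p).val := rfl

theorem h12tl_cycloExp_cast (p : ℕ) [Fact p.Prime]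
    (σ : AlgebraicClosure ℚ ≃ₐ[ℚ] AlgebraicClosure ℚ) :
    ((cycloExp p σ : ℕ) : ZMod p) = ((h12tl_chi p σ : (ZMod p)ˣ) : ZMod p) := by
  haveI : NeZero p := ⟨(Fact.out : p.Prime).ne_zero⟩
  rw [h12tl_cycloExp_eq, ZMod.natCast_val, ZMod.cast_id', id]

theorem h12tl_cycloExp_eq_one_iff (p : ℕ) [Fact p.Prime]
    (σ : AlgebraicClosure ℚ ≃ₐ[ℚ] AlgebraicClosure ℚ) :
    cycloExp p σ = 1 ↔ h12tl_chi p σ = 1 := by
  haveI : NeZero p := ⟨(Fact.out : p.Prime).ne_zero⟩
  haveI : Fact (1 < p) := ⟨(Fact.out : p.Prime).one_lt⟩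
  rw [h12tl_cycloExp_eq]
  constructor
  · intro h
    apply Units.ext
    apply ZMod.val_injective
    rw [h, Units.val_one, ZMod.val_one]
  · intro h
    rw [h, Units.val_one, ZMod.val_one]

/-- the commutator of two elements lies in `ker χ` -/
theorem h12tl_cycloExp_comm (p : ℕ) [Fact p.Prime]
    (σ τ : AlgebraicClosure ℚ ≃ₐ[ℚ] AlgebraicClosure ℚ) :
    cycloExp p (σ⁻¹ * τ⁻¹ * σ * τ) = 1 := by
  rw [h12tl_cycloExp_eq_one_iff]
  simp only [map_mul, map_inv]
  rw [mul_assoc, mul_assoc, mul_comm ((h12tl_chi p) σ) ((h12tl_chi p) τ)]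
  simp

/-- **TL-A** -/
theorem h12tl_easyCase (p : ℕ) [Fact p.Prime] : EasyCase p := by
  haveI : NeZero p := ⟨(Fact.out : p.Prime).ne_zero⟩
  intro hp3 V _ _ _ _ C hadm htriv
  obtain ⟨σ₀, hσ₀⟩ := h26tl_cycloNontrivial p hp3
  -- the eigenvalue
  set a : ZMod p := (cycloExp p σ₀ : ZMod p) with ha
  have ha1 : a ≠ 1 := by
    intro h
    apply hσ₀
    rw [h12tl_cycloExp_eq_one_iff]
    apply Units.ext
    rw [← h12tl_cycloExp_cast, ← ha, h, Units.val_one]
  have hu : (1 - a) ≠ 0 := sub_ne_zero.mpr (Ne.symm ha1)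
  -- commutativity of the action
  have hcomm : ∀ (τ : AlgebraicClosure ℚ ≃ₐ[ℚ] AlgebraicClosure ℚ) (v : V),
      σ₀ • τ • v = τ • σ₀ • v := by
    intro τ v
    have h1 := htriv _ (h12tl_cycloExp_comm p σ₀ τ) v
    have h2 : τ • σ₀ • ((σ₀⁻¹ * τ⁻¹ * σ₀ * τ) • v) = τ • σ₀ • v := by rw [h1]
    rw [← h2]
    simp only [← mul_smul]
    congr 1
    group
  -- the eigenspace
  let C' : Submodule (ZMod p) V :=
    { carrier := {x | σ₀ • x = a • x}
      add_mem' := by
        intro x y hx hy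
        show σ₀ • (x + y) = a • (x + y)
        rw [smul_add, smul_add, hx, hy]
      zero_mem' := by
        show σ₀ • (0 : V) = a • (0 : V)
        rw [smul_zero, smul_zero]
      smul_mem' := by
        intro c x hx
        show σ₀ • (c • x) = a • (c • x)
        rw [smul_comm σ₀ c x, hx, smul_comm] }
  have hC'mem : ∀ x, x ∈ C' ↔ σ₀ • x = a • x := fun x => Iff.rfl
  refine ⟨C', ?_, ?_⟩
  · intro τ x hx
    rw [hC'mem] at hx ⊢
    rw [hcomm, hx, smul_comm]
  · rw [isCompl_iff, disjoint_iff, codisjoint_iff]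
    constructor
    · rw [eq_bot_iff]
      intro x hx
      obtain ⟨hxC, hxC'⟩ := Submodule.mem_inf.mp hx
      rw [hC'mem, hadm.fixed_sub σ₀ x hxC] at hxC'
      have h1 : (1 - a) • x = 0 := by
        rw [sub_smul, one_smul, ← hxC', sub_self]
      rcases smul_eq_zero.mp h1 with h | h
      · exact absurd h hu
      · rw [h]; exact Submodule.zero_mem _
    · rw [eq_top_iff]
      intro v _
      have hc := hadm.cyclo_quot σ₀ v
      rw [← ha] at hc
      obtain ⟨c, hcdef⟩ : ∃ c : V, c = σ₀ • v - a • v := ⟨_, rfl⟩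
      rw [← hcdef] at hc
      have hcfix : σ₀ • c = c := hadm.fixed_sub σ₀ c hc
      have hv : v = (1 - a)⁻¹ • c + (v - (1 - a)⁻¹ • c) := by abel
      have hmem : v - (1 - a)⁻¹ • c ∈ C' := by
        rw [hC'mem, smul_sub, smul_sub, smul_comm σ₀ ((1 - a)⁻¹) c, hcfix]
        have h3 : σ₀ • v = c + a • v := by rw [hcdef]; abel
        rw [h3]
        have h4 : c = (1 - a)⁻¹ • ((1 - a) • c) := by
          rw [smul_smul, inv_mul_cancel₀ hu, one_smul]
        have h5 : (1 - a) • c = c - a • c := by rw [sub_smul, one_smul]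
        have h6 : a • (1 - a)⁻¹ • c = (1 - a)⁻¹ • (a • c) := smul_comm _ _ _
        rw [h6]
        nth_rewrite 1 [h4]
        rw [h5, smul_sub]
        abel
      rw [hv]
      exact Submodule.add_mem_sup (Submodule.smul_mem _ _ hc) hmem

end H14TL
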