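import Mathlib
import Fermat.Prelude.Def_ExtCitation_AdmissibleExtension_v2
import Fermat.Agent.CFT.TL.Defs

/-!
# T-CFT, module TL, slice A (helper16): the easy case

If `ker χ` acts trivially on an admissible extension `V`, the extension splits globally:
the image of `Γ` in `GL(V)` is abelian, and the `χ(σ₀)`-eigenspace of any `σ₀` with `χ σ₀ ≠ 1`
is a `Γ`-stable complement of `C`.  (If `χ` is trivial, `Γ` acts trivially and any complement
works.)
-/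

set_option autoImplicit false
set_option linter.style.haveILetI false
set_option linter.unusedSectionVars false

noncomputable section

namespace H16TL

open ExtCitation

/-- the mod `p` cyclotomic character with values in `(ZMod p)ˣ` -/
def h16tl_chi (p : ℕ) [Fact p.Prime] (σ : AlgebraicClosure ℚ ≃ₐ[ℚ] AlgebraicClosure ℚ) :
    (ZMod p)ˣ :=
  haveI : NeZero p := ⟨(Fact.out : p.Prime).ne_zero⟩
  modularCyclotomicCharacter (AlgebraicClosure ℚ) (card_rootsOfUnity_eq_self p)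
    (σ : AlgebraicClosure ℚ ≃+* AlgebraicClosure ℚ)

theorem h16tl_chi_mul (p : ℕ) [Fact p.Prime]
    (σ τ : AlgebraicClosure ℚ ≃ₐ[ℚ] AlgebraicClosure ℚ) :
    h16tl_chi p (σ * τ) = h16tl_chi p σ * h16tl_chi p τ := by
  haveI : NeZero p := ⟨(Fact.out : p.Prime).ne_zero⟩
  unfold h16tl_chi
  rw [← map_mul]
  rfl

theorem h16tl_chi_one (p : ℕ) [Fact p.Prime] : h16tl_chi p 1 = 1 := by
  haveI : NeZero p := ⟨(Fact.out : p.Prime).ne_zero⟩
  unfold h16tl_chi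
  rw [← map_one (modularCyclotomicCharacter (AlgebraicClosure ℚ) (card_rootsOfUnity_eq_self p))]
  rfl

theorem h16tl_chi_inv (p : ℕ) [Fact p.Prime]
    (σ : AlgebraicClosure ℚ ≃ₐ[ℚ] AlgebraicClosure ℚ) :
    h16tl_chi p σ⁻¹ = (h16tl_chi p σ)⁻¹ := by
  rw [eq_inv_iff_mul_eq_one, ← h16tl_chi_mul, inv_mul_cancel, h16tl_chi_one]

theorem h16tl_cycloExp_eq (p : ℕ) [Fact p.Prime]
    (σ : AlgebraicClosure ℚ ≃ₐ[ℚ] AlgebraicClosure ℚ) :
    cycloExp p σ = ((h16tl_chi p σ : (ZMod p)ˣ) : ZMod p).val := rfl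

theorem h16tl_cast_cycloExp (p : ℕ) [Fact p.Prime]
    (σ : AlgebraicClosure ℚ ≃ₐ[ℚ] AlgebraicClosure ℚ) :
    ((cycloExp p σ : ℕ) : ZMod p) = ((h16tl_chi p σ : (ZMod p)ˣ) : ZMod p) := by
  haveI : NeZero p := ⟨(Fact.out : p.Prime).ne_zero⟩
  rw [h16tl_cycloExp_eq, ZMod.natCast_zmod_val]

theorem h16tl_cycloExp_eq_one_iff (p : ℕ) [Fact p.Prime]
    (σ : AlgebraicClosure ℚ ≃ₐ[ℚ] AlgebraicClosure ℚ) :
    cycloExp p σ = 1 ↔ h16tl_chi p σ = 1 := by
  haveI : NeZero p := ⟨(Fact.out : p.Prime).ne_zero⟩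
  haveI : Fact (1 < p) := ⟨(Fact.out : p.Prime).one_lt⟩
  rw [h16tl_cycloExp_eq]
  constructor
  · intro h
    apply Units.ext
    apply ZMod.val_injective p
    rw [h, Units.val_one, ZMod.val_one]
  · intro h
    rw [h, Units.val_one, ZMod.val_one]

section EasyCase

variable {p : ℕ} [Fact p.Prime] {V : Type} [AddCommGroup V] [Module (ZMod p) V]
  [DistribMulAction (AlgebraicClosure ℚ ≃ₐ[ℚ] AlgebraicClosure ℚ) V]
  [SMulCommClass (AlgebraicClosure ℚ ≃ₐ[ℚ] AlgebraicClosure ℚ) (ZMod p) V]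

/-- the action on `V/C` through `χ`, in terms of `h16tl_chi` -/
theorem h16tl_quot {C : Submodule (ZMod p) V} (hadm : IsAdmissibleExtension p V C)
    (σ : AlgebraicClosure ℚ ≃ₐ[ℚ] AlgebraicClosure ℚ) (x : V) :
    σ • x - ((h16tl_chi p σ : (ZMod p)ˣ) : ZMod p) • x ∈ C := by
  have h := hadm.cyclo_quot σ x
  rwa [h16tl_cast_cycloExp] at h

/-- if `ker χ` acts trivially, the action is commutative -/
theorem h16tl_comm
    (hker : ∀ σ : AlgebraicClosure ℚ ≃ₐ[ℚ] AlgebraicClosure ℚ, cycloExp p σ = 1 →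
      ∀ v : V, σ • v = v)
    (σ τ : AlgebraicClosure ℚ ≃ₐ[ℚ] AlgebraicClosure ℚ) (v : V) :
    σ • τ • v = τ • σ • v := by
  have hc : h16tl_chi p (σ * τ * σ⁻¹ * τ⁻¹) = 1 := by
    rw [h16tl_chi_mul, h16tl_chi_mul, h16tl_chi_mul, h16tl_chi_inv, h16tl_chi_inv]
    rw [mul_comm (h16tl_chi p σ) (h16tl_chi p τ), mul_assoc (h16tl_chi p τ),
      mul_inv_cancel, mul_one, mul_inv_cancel]
  have h := hker _ ((h16tl_cycloExp_eq_one_iff p _).mpr hc) (τ • σ • v)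
  rw [← h]
  simp only [← mul_smul]
  congr 1
  group

/-- the eigenspace of `σ₀` for the eigenvalue `χ σ₀` -/
def h16tl_eigen (p : ℕ) [Fact p.Prime] (V : Type) [AddCommGroup V] [Module (ZMod p) V]
    [DistribMulAction (AlgebraicClosure ℚ ≃ₐ[ℚ] AlgebraicClosure ℚ) V]
    [SMulCommClass (AlgebraicClosure ℚ ≃ₐ[ℚ] AlgebraicClosure ℚ) (ZMod p) V]
    (σ₀ : AlgebraicClosure ℚ ≃ₐ[ℚ] AlgebraicClosure ℚ) : Submodule (ZMod p) V where
  carrier := {v | σ₀ • v = ((h16tl_chi p σ₀ : (ZMod p)ˣ) : ZMod p) • v}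
  add_mem' := by
    intro a b ha hb
    have ha' : σ₀ • a = ((h16tl_chi p σ₀ : (ZMod p)ˣ) : ZMod p) • a := ha
    have hb' : σ₀ • b = ((h16tl_chi p σ₀ : (ZMod p)ˣ) : ZMod p) • b := hb
    show σ₀ • (a + b) = ((h16tl_chi p σ₀ : (ZMod p)ˣ) : ZMod p) • (a + b)
    rw [smul_add, ha', hb', smul_add]
  zero_mem' := by
    show σ₀ • (0 : V) = ((h16tl_chi p σ₀ : (ZMod p)ˣ) : ZMod p) • (0 : V)
    rw [smul_zero, smul_zero]
  smul_mem' := by
    intro c v hv
    have hv' : σ₀ • v = ((h16tl_chi p σ₀ : (ZMod p)ˣ) : ZMod p) • v := hv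
    show σ₀ • c • v = ((h16tl_chi p σ₀ : (ZMod p)ˣ) : ZMod p) • c • v
    rw [smul_comm σ₀ c v, hv', smul_comm]

theorem h16tl_mem_eigen (σ₀ : AlgebraicClosure ℚ ≃ₐ[ℚ] AlgebraicClosure ℚ) (v : V) :
    v ∈ h16tl_eigen p V σ₀ ↔ σ₀ • v = ((h16tl_chi p σ₀ : (ZMod p)ˣ) : ZMod p) • v := Iff.rfl

theorem h16tl_isCompl_eigen {C : Submodule (ZMod p) V} (hadm : IsAdmissibleExtension p V C)
    (σ₀ : AlgebraicClosure ℚ ≃ₐ[ℚ] AlgebraicClosure ℚ) (hσ₀ : h16tl_chi p σ₀ ≠ 1) :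
    IsCompl C (h16tl_eigen p V σ₀) := by
  set a : ZMod p := ((h16tl_chi p σ₀ : (ZMod p)ˣ) : ZMod p) with ha
  have ha1 : (1 : ZMod p) - a ≠ 0 := by
    intro h
    apply hσ₀
    apply Units.ext
    rw [Units.val_one]
    exact (sub_eq_zero.mp h).symm
  constructor
  · rw [Submodule.disjoint_def]
    intro v hvC hvE
    rw [h16tl_mem_eigen] at hvE
    have h1 := hadm.fixed_sub σ₀ v hvC
    rw [h1] at hvE
    have h2 : ((1 : ZMod p) - a) • v = 0 := by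
      rw [sub_smul, one_smul, ← hvE, sub_self]
    rcases smul_eq_zero.mp h2 with h | h
    · exact absurd h ha1
    · exact h
  · rw [codisjoint_iff, eq_top_iff]
    intro v _
    obtain ⟨c, hc⟩ : ∃ c : V, c = σ₀ • v - a • v := ⟨_, rfl⟩
    have hcC : c ∈ C := by rw [hc]; exact h16tl_quot hadm σ₀ v
    have hσc : σ₀ • c = c := hadm.fixed_sub σ₀ c hcC
    have hσv : σ₀ • v = a • v + c := by rw [hc]; abel
    obtain ⟨b, hb⟩ : ∃ b : ZMod p, b = ((1 : ZMod p) - a)⁻¹ := ⟨_, rfl⟩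
    have hb1 : b - a * b = 1 := by
      rw [hb]
      field_simp
    obtain ⟨w, hw⟩ : ∃ w : V, w = v - b • c := ⟨_, rfl⟩
    have hwE : w ∈ h16tl_eigen p V σ₀ := by
      rw [h16tl_mem_eigen, ← ha, hw, smul_sub, smul_sub, smul_comm σ₀ b c, hσc, hσv]
      have key : c = b • c - a • b • c := by
        rw [← smul_assoc, ← sub_smul, smul_eq_mul, hb1, one_smul]
      have : a • v + c - b • c - (a • v - a • b • c) = c - (b • c - a • b • c) := by abel
      rw [← sub_eq_zero, this, ← key, sub_self]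
    have hv : v = b • c + w := by rw [hw]; abel
    rw [hv]
    exact Submodule.add_mem_sup (C.smul_mem _ hcC) hwE

end EasyCase

/-- **TL-A**: the easy case. -/
theorem h16_easyCase (p : ℕ) [Fact p.Prime] : H14TL.EasyCase p := by
  intro _ V _ _ _ _ C hadm hker
  by_cases hall : ∀ σ : AlgebraicClosure ℚ ≃ₐ[ℚ] AlgebraicClosure ℚ, h16tl_chi p σ = 1
  · -- trivial action: any complement works
    obtain ⟨C', hC'⟩ := Submodule.exists_isCompl C
    refine ⟨C', fun σ x hx => ?_, hC'⟩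
    rw [hker σ ((h16tl_cycloExp_eq_one_iff p σ).mpr (hall σ)) x]
    exact hx
  · obtain ⟨σ₀, hσ₀⟩ := not_forall.mp hall
    refine ⟨h16tl_eigen p V σ₀, fun τ x hx => ?_, h16tl_isCompl_eigen hadm σ₀ hσ₀⟩
    rw [h16tl_mem_eigen] at hx ⊢
    rw [h16tl_comm hker σ₀ τ x, hx, smul_comm]

end H16TL

end
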